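import Mathlib.Algebra.Polynomial.Derivative
import Mathlib.Algebra.Polynomial.Roots
import Mathlib.Algebra.CharP.Basic
import Mathlib.Algebra.CharP.Lemmas
import Mathlib.FieldTheory.IsAlgClosed.Basic
import Mathlib.FieldTheory.Separable
import Mathlib.Data.Nat.Choose.Vandermonde
import Mathlib.Data.Nat.Choose.Dvd
import Mathlib.Tactic.LinearCombination

/-!
# Deuring's polynomial

`Σ C(h,i)² λ^i` in characteristic `q = 2h + 1`: it satisfies the hypergeometric equation, so its
roots are simple, and it does not vanish at `0` and `1`.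
-/

set_option autoImplicit false
set_option linter.unusedSectionVars false

noncomputable section

namespace FA.Carayol

open Polynomial

/-- Deuring's polynomial. -/
def hPoly (h : ℕ) (R : Type*) [CommRing R] : Polynomial R :=
  ∑ i ∈ Finset.range (h + 1), C ((h.choose i : R) ^ 2) * X ^ i

variable {h : ℕ} {R : Type*} [CommRing R]

theorem coeff_hPoly (i : ℕ) : (hPoly h R).coeff i = (h.choose i : R) ^ 2 := by
  simp only [hPoly, finsetSum_coeff, coeff_C_mul_X_pow, Finset.sum_ite_eq, Finset.mem_range]
  split_ifs with hi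
  · rfl
  · rw [Nat.choose_eq_zero_of_lt (by omega), Nat.cast_zero, zero_pow two_ne_zero]

theorem hPoly_map {S : Type*} [CommRing S] (f : R →+* S) : (hPoly h R).map f = hPoly h S := by
  simp [hPoly, Polynomial.map_sum]

theorem eval_hPoly (c : R) :
    (hPoly h R).eval c = ∑ i ∈ Finset.range (h + 1), (h.choose i : R) ^ 2 * c ^ i := by
  simp [hPoly, eval_finset_sum]

theorem eval_zero_hPoly : (hPoly h R).eval 0 = 1 := by
  rw [← coeff_zero_eq_eval_zero, coeff_hPoly, Nat.choose_zero_right, Nat.cast_one, one_pow]

section char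

variable {k : Type*} [Field k] {q : ℕ} [hq : Fact q.Prime] [CharP k q] (hqh : q = 2 * h + 1)

include hqh

theorem hPoly_natDegree : (hPoly h k).natDegree = h := by
  refine natDegree_eq_of_le_of_coeff_ne_zero (natDegree_le_iff_coeff_eq_zero.2 fun i hi => ?_) ?_
  · rw [coeff_hPoly, Nat.choose_eq_zero_of_lt (by exact_mod_cast hi), Nat.cast_zero,
      zero_pow two_ne_zero]
  · rw [coeff_hPoly, Nat.choose_self, Nat.cast_one, one_pow]
    exact one_ne_zero

theorem eval_one_hPoly_ne_zero : (hPoly h k).eval 1 ≠ 0 := by
  rw [eval_hPoly]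
  simp only [one_pow, mul_one, ← Nat.cast_pow, ← Nat.cast_sum, Nat.sum_range_choose_sq]
  rw [ne_eq, CharP.cast_eq_zero_iff k q]
  intro hd
  have h1 : q ∣ (2 * h).factorial := by
    rw [← Nat.choose_mul_factorial_mul_factorial (n := 2 * h) (k := h) (by omega), mul_assoc]
    exact hd.mul_right _
  have := (Nat.Prime.dvd_factorial hq.out).1 h1
  omega

theorem two_ne_zero_of_odd : (2 : k) ≠ 0 := by
  have h3 := hq.out.two_le
  refine Ring.two_ne_zero ?_
  rw [ringChar.eq k q]
  omega

theorem hPoly_coeff_rec (i : ℕ) :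
    4 * ((i : k) + 1) ^ 2 * (hPoly h k).coeff (i + 1) =
      (2 * (i : k) + 1) ^ 2 * (hPoly h k).coeff i := by
  rw [coeff_hPoly, coeff_hPoly]
  have hq0 : 2 * (h : k) + 1 = 0 := by
    have := CharP.cast_eq_zero k q
    rw [hqh] at this
    push_cast at this
    exact this
  rcases le_or_gt i h with hi | hi
  · have h1 : (h.choose (i + 1) : k) * ((i : k) + 1) = (h.choose i : k) * ((h : k) - i) := by
      have := congrArg (fun n : ℕ => (n : k)) (Nat.choose_succ_right_eq h i)
      push_cast [Nat.cast_sub hi] at this
      exact this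
    linear_combination 4 * ((h.choose (i + 1) : k) * ((i : k) + 1) +
        (h.choose i : k) * ((h : k) - i)) * h1 +
      (h.choose i : k) ^ 2 * (2 * (h : k) - 4 * (i : k) - 1) * hq0
  · rw [Nat.choose_eq_zero_of_lt hi, Nat.choose_eq_zero_of_lt (by omega), Nat.cast_zero]
    ring

/-- **The hypergeometric equation.** -/
theorem hPoly_ode :
    4 * (X * (1 - X)) * derivative (derivative (hPoly h k)) +
      4 * (1 - 2 * X) * derivative (hPoly h k) = hPoly h k := by
  set H := hPoly h k
  rw [show 4 * (X * (1 - X)) * derivative (derivative H) + 4 * (1 - 2 * X) * derivative H =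
    C 4 * (X * derivative (derivative H)) - C 4 * (X * (X * derivative (derivative H))) +
      C 4 * derivative H - C 8 * (X * derivative H) by
      simp only [map_ofNat]; ring]
  ext i
  simp only [coeff_add, coeff_sub, coeff_C_mul]
  rcases i with _ | _ | i
  · simp only [coeff_X_mul_zero, coeff_derivative]
    have := hPoly_coeff_rec (k := k) hqh 0
    push_cast at this ⊢
    linear_combination this
  · simp only [coeff_X_mul, coeff_X_mul_zero, coeff_derivative]
    have := hPoly_coeff_rec (k := k) hqh 1
    push_cast at this ⊢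
    linear_combination this
  · simp only [coeff_X_mul, coeff_derivative]
    have := hPoly_coeff_rec (k := k) hqh (i + 2)
    push_cast at this ⊢
    linear_combination this

theorem hPoly_roots_simple [DecidableEq k] (c : k) : Multiset.count c (hPoly h k).roots ≤ 1 := by
  classical
  by_contra hlt
  rw [count_roots, not_le] at hlt
  set H := hPoly h k
  have hH0 : H ≠ 0 := fun e => by
    have := congrArg (fun p : k[X] => p.eval 0) e
    simp only [H, eval_zero_hPoly, eval_zero] at this
    exact one_ne_zero this
  have hroot : H.eval c = 0 := (one_lt_rootMultiplicity_iff_isRoot hH0).1 hlt |>.1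
  have hc0 : c ≠ 0 := fun e => one_ne_zero (eval_zero_hPoly.symm.trans (e ▸ hroot))
  have hc1 : c ≠ 1 := fun e => eval_one_hPoly_ne_zero hqh (e ▸ hroot)
  obtain ⟨G, hG, hGc⟩ := H.exists_eq_pow_rootMultiplicity_mul_and_not_dvd hH0 c
  obtain ⟨j, hj⟩ : ∃ j, rootMultiplicity c H = j + 2 := ⟨rootMultiplicity c H - 2, by omega⟩
  have hjq : j + 2 < q := by
    have h1 : (rootMultiplicity c H) ≤ H.natDegree := by
      rw [← count_roots]
      exact (Multiset.count_le_card _ _).trans (card_roots' H)
    rw [hPoly_natDegree hqh] at h1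
    omega
  rw [hj] at hG
  set u : k[X] := X - C c
  have hu : derivative u = 1 := by simp [u]
  have hode := hPoly_ode (k := k) hqh
  have e1 : derivative H = u ^ (j + 1) * ((j + 2 : k[X]) * G + u * derivative G) := by
    rw [hG, derivative_mul, derivative_pow, hu, show j + 2 - 1 = j + 1 by omega]
    push_cast [map_natCast, map_add, map_ofNat]
    ring
  have e2 : derivative (derivative H) = u ^ j * ((j + 2 : k[X]) * ((j : k[X]) + 1) * G +
      u * (2 * (j + 2 : k[X]) * derivative G + u * derivative (derivative G))) := by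
    rw [e1]
    simp only [derivative_mul, derivative_add, derivative_pow, hu, derivative_natCast,
      derivative_ofNat]
    push_cast [map_natCast, map_add, map_ofNat, map_one, Nat.add_sub_cancel]
    ring
  change 4 * (X * (1 - X)) * derivative (derivative H) + 4 * (1 - 2 * X) * derivative H = H at hode
  rw [e2, e1] at hode
  conv_rhs at hode => rw [hG]
  have hcancel : 4 * (X * (1 - X)) * ((j + 2 : k[X]) * ((j : k[X]) + 1) * G +
      u * (2 * (j + 2 : k[X]) * derivative G + u * derivative (derivative G))) +
      4 * (1 - 2 * X) * u * ((j + 2 : k[X]) * G + u * derivative G) = u ^ 2 * G :=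
    mul_left_cancel₀ (pow_ne_zero j (X_sub_C_ne_zero c)) (by linear_combination hode)
  have h0 := congrArg (fun p : k[X] => p.eval c) hcancel
  simp only [u, eval_add, eval_mul, eval_sub, eval_pow, eval_X, eval_C, eval_one, eval_ofNat,
    eval_natCast, sub_self, zero_mul, mul_zero, add_zero, zero_pow two_ne_zero] at h0
  have hcast : ∀ m : ℕ, 0 < m → m < q → (m : k) ≠ 0 := fun m hm hmq e =>
    absurd (Nat.le_of_dvd hm ((CharP.cast_eq_zero_iff k q m).1 e)) (not_le.2 hmq)
  have hG0 : G.eval c ≠ 0 := fun e => hGc (dvd_iff_isRoot.2 e)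
  have hj2 := hcast (j + 2) (by omega) hjq
  have hj1 := hcast (j + 1) (by omega) (by omega)
  push_cast at hj1 hj2
  have h4 : (4 : k) ≠ 0 := by
    rw [show (4 : k) = 2 * 2 by norm_num]
    exact mul_ne_zero (two_ne_zero_of_odd hqh) (two_ne_zero_of_odd hqh)
  simp [h4, hc0, sub_ne_zero.2 (Ne.symm hc1), hj1, hj2, hG0] at h0

theorem card_roots_hPoly [IsAlgClosed k] [DecidableEq k] :
    (hPoly h k).roots.toFinset.card = h := by
  rw [Multiset.toFinset_card_of_nodup
    (Multiset.nodup_iff_count_le_one.2 (hPoly_roots_simple hqh)),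
    IsAlgClosed.card_roots_eq_natDegree, hPoly_natDegree hqh]

end char

end FA.Carayol

end
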