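import Fermat.Agent.Carayol.Defs
import Fermat.Agent.Carayol.Hasse.HassePoly
import Mathlib.NumberTheory.LegendreSymbol.QuadraticChar.Basic
import Mathlib.FieldTheory.Finite.Basic

/-!
# The number of points of a Legendre curve over a finite field modulo the characteristic
-/

set_option autoImplicit false
set_option linter.unusedSectionVars false

noncomputable section

namespace FA.Carayol

open Polynomial WeierstrassCurve

section coeff

variable {R : Type*} [CommRing R]

theorem coeff_legendreCubic_pow (c : R) (h : ℕ) :
    ((X * (X - 1) * (X - C c)) ^ h : R[X]).coeff (2 * h) = (-1) ^ h * (hPoly h R).eval c := by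
  rw [mul_pow, mul_pow, mul_assoc, two_mul, coeff_X_pow_mul, coeff_mul,
    Finset.Nat.sum_antidiagonal_eq_sum_range_succ
      (fun i j => ((X - 1 : R[X]) ^ h).coeff i * ((X - C c : R[X]) ^ h).coeff j),
    eval_hPoly, Finset.mul_sum]
  refine Finset.sum_congr rfl fun i hi => ?_
  have hi' : i ≤ h := Nat.lt_succ_iff.1 (Finset.mem_range.1 hi)
  rw [show (X - 1 : R[X]) = X + C (-1) by rw [map_neg, map_one, ← sub_eq_add_neg],
    show (X - C c : R[X]) = X + C (-c) by rw [map_neg, ← sub_eq_add_neg], coeff_X_add_C_pow,
    coeff_X_add_C_pow, Nat.choose_symm hi', Nat.sub_sub_self hi', neg_pow c]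
  have h2 : (-1 : R) ^ h = (-1) ^ (h - i) * (-1) ^ i := by rw [← pow_add, Nat.sub_add_cancel hi']
  rw [h2]
  ring

end coeff

variable {F : Type} [Field F] {q : ℕ} [hq : Fact q.Prime] [CharP F q] {h : ℕ}

/-- The right hand side of the Legendre equation. -/
def legCubic (c : F) : F[X] := X * (X - 1) * (X - C c)

theorem natDegree_legCubic (c : F) : (legCubic c).natDegree = 3 := by
  rw [legCubic, ← map_one C, natDegree_mul (mul_ne_zero X_ne_zero (X_sub_C_ne_zero _))
    (X_sub_C_ne_zero _), natDegree_mul X_ne_zero (X_sub_C_ne_zero _), natDegree_X,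
    natDegree_X_sub_C, natDegree_X_sub_C]

theorem eval_legCubic (c x : F) : (legCubic c).eval x = x * (x - 1) * (x - c) := by
  simp [legCubic]

/-- The coefficient of `x ^ (q ^ r - 1)` is a product of conjugates. -/
theorem coeff_legCubic_pow (hqh : q = 2 * h + 1) (c : F) :
    ∀ r : ℕ, ((legCubic c) ^ ((q ^ r - 1) / 2)).coeff (q ^ r - 1) =
      ∏ i ∈ Finset.range r, ((-1) ^ h * (hPoly h F).eval c) ^ q ^ i := by
  intro r
  induction r with
  | zero => simp
  | succ r ih =>
    have hq0 : 0 < q := hq.out.pos
    have hr : 1 ≤ q ^ r := Nat.one_le_pow _ _ hq0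
    set M := (q ^ r - 1) / 2
    have hM : 2 * M = q ^ r - 1 := by
      obtain ⟨t, ht⟩ := (Odd.pow ⟨h, hqh⟩ : Odd (q ^ r))
      simp only [M, ht]
      omega
    have hM' : (q ^ (r + 1) - 1) / 2 = h + q * M := by
      have : q ^ (r + 1) = 2 * (h + q * M) + 1 := by
        rw [pow_succ', show q ^ r = 2 * M + 1 by omega]
        calc q * (2 * M + 1) = 2 * (q * M) + q := by ring
          _ = 2 * (h + q * M) + 1 := by omega
      omega
    have hexp : q ^ (r + 1) - 1 = 2 * h + q * (q ^ r - 1) := by
      rw [pow_succ', Nat.mul_sub, mul_one]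
      have : q ≤ q * q ^ r := Nat.le_mul_of_pos_right _ hr
      omega
    set g := legCubic c ^ M
    rw [hM', pow_add, mul_comm q M, pow_mul, ← map_frobenius_expand (R := F) (p := q), hexp,
      coeff_mul, Finset.sum_eq_single (2 * h, q * (q ^ r - 1))]
    · rw [coeff_map, coeff_expand_mul' hq0, ih, frobenius_def, ← Finset.prod_pow,
        legCubic, coeff_legendreCubic_pow, Finset.prod_range_succ', pow_zero, pow_one, mul_comm]
      congr 1
      refine Finset.prod_congr rfl fun i _ => ?_
      rw [← pow_mul, pow_succ]
    · rintro ⟨a, b⟩ hab hne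
      rw [Finset.HasAntidiagonal.mem_antidiagonal] at hab
      simp only at hab ⊢
      by_cases hb : q ∣ b
      swap
      · rw [coeff_map, coeff_expand hq0, if_neg hb, map_zero, mul_zero]
      by_cases ha : 3 * h < a
      · rw [coeff_eq_zero_of_natDegree_lt, zero_mul]
        rw [natDegree_pow, natDegree_legCubic]
        omega
      exfalso
      obtain ⟨b', rfl⟩ := hb
      refine hne ?_
      have hb' : b' = q ^ r - 1 := by
        by_contra hb'
        rcases Nat.lt_or_ge b' (q ^ r - 1) with hlt | hge
        · have : q * (b' + 1) ≤ q * (q ^ r - 1) := Nat.mul_le_mul_left q hlt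
          rw [mul_add, mul_one] at this
          omega
        · have : q * (q ^ r - 1 + 1) ≤ q * b' := Nat.mul_le_mul_left q (by omega)
          rw [mul_add, mul_one] at this
          omega
      subst hb'
      simp only [Prod.mk.injEq, and_true]
      omega
    · intro hne
      exact (hne (Finset.HasAntidiagonal.mem_antidiagonal.2 rfl)).elim

variable [Fintype F]

/-- Power sums of a polynomial of small degree. -/
theorem sum_eval_eq_neg_coeff (p : F[X]) (hp : p.natDegree < 2 * (Fintype.card F - 1)) :
    ∑ x : F, p.eval x = -p.coeff (Fintype.card F - 1) := by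
  classical
  set Q := Fintype.card F
  have hQ : 2 ≤ Q := Fintype.one_lt_card
  simp only [eval_eq_sum_range' hp]
  rw [Finset.sum_comm]
  rw [Finset.sum_eq_single (Q - 1)]
  · rw [← Finset.mul_sum]
    have hsum : ∑ x : F, x ^ (Q - 1) = -1 := by
      rw [← Finset.sum_erase_add Finset.univ _ (Finset.mem_univ (0 : F)),
        zero_pow (by omega), add_zero,
        Finset.sum_congr rfl fun x hx => FiniteField.pow_card_sub_one_eq_one x
          (Finset.ne_of_mem_erase hx), Finset.sum_const, Finset.card_erase_of_mem (Finset.mem_univ _),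
        Finset.card_univ, nsmul_one, Nat.cast_sub (by omega), FiniteField.cast_card_eq_zero]
      simp
    rw [hsum, mul_neg, mul_one]
  · intro i hi hne
    rw [Finset.mem_range] at hi
    rw [← Finset.mul_sum]
    rcases lt_or_gt_of_ne hne with hlt | hgt
    · rw [FiniteField.sum_pow_lt_card_sub_one (K := F) i hlt, mul_zero]
    · rw [Finset.sum_congr rfl fun x _ => show x ^ i = x ^ (i - (Q - 1)) from ?_,
        FiniteField.sum_pow_lt_card_sub_one (K := F) (i - (Q - 1)) (show _ < Q - 1 by omega), mul_zero]
      rcases eq_or_ne x 0 with rfl | hx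
      · rw [zero_pow (by omega), zero_pow (by omega)]
      · conv_lhs => rw [show i = i - (Q - 1) + (Q - 1) by omega]
        rw [pow_add, FiniteField.pow_card_sub_one_eq_one x hx, mul_one]
  · intro hne
    exact absurd (Finset.mem_range.2 (by omega)) hne

/-- **The number of points modulo the characteristic.** -/
theorem natCard_point_legendre [DecidableEq F] (hqh : q = 2 * h + 1) {r : ℕ}
    (hr : Fintype.card F = q ^ r) {c : F} [hW : (legendre c).IsElliptic] :
    (Nat.card (legendre c).toAffine.Point : F) =
      1 - ∏ i ∈ Finset.range r, ((-1) ^ h * (hPoly h F).eval c) ^ q ^ i := by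
  classical
  have hF2 : ringChar F ≠ 2 := by
    rw [ringChar.eq F q]
    have := hq.out.two_le
    omega
  have heq : ∀ x y : F, (legendre c).toAffine.Equation x y ↔ y ^ 2 = (legCubic c).eval x := by
    intro x y
    rw [Affine.equation_iff, eval_legCubic]
    simp only [legendre]
    constructor <;> intro hxy <;> linear_combination hxy
  let e : (legendre c).toAffine.Point ≃
      Option (Σ x : F, {y : F // y ^ 2 = (legCubic c).eval x}) :=
    { toFun := fun P => match P with
        | .zero => none
        | .some x y hxy => some ⟨x, y, (heq x y).1 hxy.1⟩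
      invFun := fun o => match o with
        | none => .zero
        | some ⟨x, y, hxy⟩ => .some x y (Affine.equation_iff_nonsingular.1 ((heq x y).2 hxy))
      left_inv := fun P => by rcases P with _ | ⟨x, y, hxy⟩ <;> rfl
      right_inv := fun o => by rcases o with _ | ⟨x, y, hxy⟩ <;> rfl }
  have hcardy : ∀ x : F, (Fintype.card {y : F // y ^ 2 = (legCubic c).eval x} : F) =
      (legCubic c).eval x ^ (Fintype.card F / 2) + 1 := fun x => by
    have h2 := congrArg (fun n : ℤ => (n : F)) (quadraticChar_card_sqrts hF2 ((legCubic c).eval x))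
    push_cast [quadraticChar_eq_pow_of_char_ne_two' hF2] at h2
    rw [← h2, Set.toFinset_card]
    rfl
  rw [Nat.card_congr e, Nat.card_eq_fintype_card, Fintype.card_option, Fintype.card_sigma,
    Nat.cast_add, Nat.cast_one, Nat.cast_sum]
  simp only [hcardy, Finset.sum_add_distrib, Finset.sum_const, Finset.card_univ, nsmul_one,
    FiniteField.cast_card_eq_zero, add_zero, ← eval_pow]
  have hodd : (q ^ r) % 2 = 1 := Nat.odd_iff.1 (Odd.pow ⟨h, hqh⟩)
  have h1 := Fintype.one_lt_card (α := F)
  rw [sum_eval_eq_neg_coeff _ (by rw [natDegree_pow, natDegree_legCubic]; omega), hr,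
    show q ^ r / 2 = (q ^ r - 1) / 2 by omega, coeff_legCubic_pow hqh]
  ring

end FA.Carayol

end
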