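import Fermat.Agent.Carayol.Hasse.RatDeriv
import Fermat.Agent.EC.TorsionCard
import Mathlib.Algebra.Polynomial.Expand

/-!
# The division polynomial of index `p` in characteristic `p`

For `y² = f(x) = x³ + a x² + b x + e` let `D` be the derivative by `x` and write the multiples of
the generic point as `(u, √f · v)`. Then `D u = n v`, so at `n = p` the rational function `x(pP)`
has derivative zero and the division polynomial is a polynomial in `x ^ p`.
-/

set_option autoImplicit false
set_option linter.style.haveILetI false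
set_option linter.unusedSectionVars false

noncomputable section

namespace FA.Carayol

open WeierstrassCurve Polynomial FA.EC

variable {k : Type} [Field k]

/-- The curve `y² = x³ + a x² + b x + e`. -/
def shortW {R : Type*} [CommRing R] (a b e : R) : WeierstrassCurve R := ⟨0, a, 0, b, e⟩

variable (k) in
/-- The field of the generic point. -/
abbrev GenField : Type := AlgebraicClosure (RatFunc k)

section mult

variable (a b e : k)

/-- The cubic at a rational function. -/
def cubicAt (u : RatFunc k) : RatFunc k :=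
  u ^ 3 + RatFunc.C a * u ^ 2 + RatFunc.C b * u + RatFunc.C e

/-- Its derivative. -/
def cubicAt' (u : RatFunc k) : RatFunc k :=
  3 * u ^ 2 + 2 * RatFunc.C a * u + RatFunc.C b

theorem rDer_cubicAt (u : RatFunc k) : rDer (cubicAt a b e u) = cubicAt' a b u * rDer u := by
  simp only [cubicAt, cubicAt', pow_succ, pow_zero, one_mul, rDer_add, rDer_mul, rDer_C]
  ring

theorem cubicAt_X : cubicAt a b e RatFunc.X =
    algebraMap k[X] (RatFunc k) (X ^ 3 + C a * X ^ 2 + C b * X + C e) := by
  simp [cubicAt, RatFunc.algebraMap_C, RatFunc.algebraMap_X]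

theorem cubicAt_X_ne_zero : cubicAt a b e (RatFunc.X : RatFunc k) ≠ 0 := by
  rw [cubicAt_X]
  refine RatFunc.algebraMap_ne_zero fun h => ?_
  have := congrArg (fun p : k[X] => p.coeff 3) h
  simp [coeff_X, coeff_C, coeff_X_pow] at this

local notation "d₀" => cubicAt a b e (RatFunc.X : RatFunc k)
local notation "X₀" => (RatFunc.X : RatFunc k)

variable (k) in
/-- Constants in the field of the generic point. -/
abbrev toGen : k →+* GenField k := (algebraMap (RatFunc k) (GenField k)).comp RatFunc.C

/-- The curve over the field of the generic point. -/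
abbrev genW : WeierstrassCurve (GenField k) := (shortW a b e).map (toGen k)

/-- The square root of the cubic. -/
def sqrtF : GenField k :=
  (IsAlgClosed.exists_pow_nat_eq (algebraMap (RatFunc k) (GenField k) d₀) two_pos).choose

theorem sqrtF_sq : sqrtF a b e ^ 2 = algebraMap (RatFunc k) (GenField k) d₀ :=
  (IsAlgClosed.exists_pow_nat_eq _ two_pos).choose_spec

theorem sqrtF_ne_zero : sqrtF a b e ≠ 0 := by
  intro h
  have := sqrtF_sq a b e
  rw [h, zero_pow two_ne_zero] at this
  exact cubicAt_X_ne_zero a b e ((map_eq_zero_iff _ (RingHom.injective _)).1 this.symm)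

/-- `P = (u, √f v)` with `D u = δ v`. -/
def IsMultiple (δ : RatFunc k) (P : (genW a b e).toAffine.Point) : Prop :=
  ∃ (u v : RatFunc k) (h : (genW a b e).toAffine.Nonsingular
      (algebraMap (RatFunc k) (GenField k) u) (sqrtF a b e * algebraMap (RatFunc k) (GenField k) v)),
    P = Affine.Point.some _ _ h ∧ rDer u = δ * v

variable {a b e}

theorem equation_rat {u v : RatFunc k}
    (h : (genW a b e).toAffine.Equation (algebraMap (RatFunc k) (GenField k) u)
      (sqrtF a b e * algebraMap (RatFunc k) (GenField k) v)) :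
    d₀ * v ^ 2 = cubicAt a b e u := by
  rw [Affine.equation_iff] at h
  refine (algebraMap (RatFunc k) (GenField k)).injective ?_
  simp only [shortW, WeierstrassCurve.map, map_zero, zero_mul, add_zero, RingHom.comp_apply] at h
  rw [map_mul, map_pow, ← sqrtF_sq, cubicAt, map_add, map_add, map_add, map_mul, map_mul, map_pow,
    map_pow]
  linear_combination h

variable [DecidableEq (GenField k)] [DecidableEq (RatFunc k)]

theorem isMultiple_two (h2 : (2 : k) ≠ 0)
    {hP : (genW a b e).toAffine.Nonsingular (algebraMap (RatFunc k) (GenField k) X₀) (sqrtF a b e)} :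
    IsMultiple a b e 2 (Affine.Point.some _ _ hP + Affine.Point.some _ _ hP) := by
  have hd := cubicAt_X_ne_zero a b e
  have hs := sqrtF_ne_zero a b e
  have h2' : (2 : RatFunc k) ≠ 0 := by
    rw [← map_ofNat (RatFunc.C (K := k)) 2]; exact (_root_.map_ne_zero _).2 h2
  have h2'' : (2 : GenField k) ≠ 0 := by
    rw [← map_ofNat (algebraMap (RatFunc k) (GenField k)) 2]; exact (_root_.map_ne_zero _).2 h2'
  set ι := algebraMap (RatFunc k) (GenField k)
  set m : RatFunc k := cubicAt' a b X₀ / (2 * d₀)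
  have hneg : sqrtF a b e ≠ (genW a b e).toAffine.negY (ι X₀) (sqrtF a b e) := by
    simp only [Affine.negY, shortW, WeierstrassCurve.map, map_zero, zero_mul, sub_zero]
    intro h
    exact hs (mul_left_cancel₀ h2'' (by linear_combination h))
  have hne : ¬ (ι X₀ = ι X₀ ∧ sqrtF a b e = (genW a b e).toAffine.negY (ι X₀) (sqrtF a b e)) :=
    fun h => hneg h.2
  rw [Affine.Point.add_of_Y_ne hneg]
  have hslope : (genW a b e).toAffine.slope (ι X₀) (ι X₀) (sqrtF a b e) (sqrtF a b e) =
      sqrtF a b e * ι m := by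
    rw [Affine.slope_of_Y_ne rfl hneg]
    simp only [Affine.negY, shortW, WeierstrassCurve.map, map_zero, zero_mul, sub_zero,
      RingHom.comp_apply, m, ι, cubicAt', map_div₀, map_mul, map_add, map_pow, map_ofNat]
    rw [← sqrtF_sq]
    field_simp
    ring_nf
    field_simp
    ring
  set u : RatFunc k := d₀ * m ^ 2 - RatFunc.C a - 2 * X₀
  set v : RatFunc k := -(m * (u - X₀) + 1)
  have hu : (genW a b e).toAffine.addX (ι X₀) (ι X₀)
      ((genW a b e).toAffine.slope (ι X₀) (ι X₀) (sqrtF a b e) (sqrtF a b e)) = ι u := by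
    rw [hslope]
    simp only [Affine.addX, shortW, WeierstrassCurve.map, map_zero, zero_mul, add_zero, u,
      RingHom.comp_apply, map_sub, map_mul, map_pow, map_ofNat, mul_pow, sqrtF_sq, ι]
    ring
  have hv : (genW a b e).toAffine.addY (ι X₀) (ι X₀) (sqrtF a b e)
      ((genW a b e).toAffine.slope (ι X₀) (ι X₀) (sqrtF a b e) (sqrtF a b e)) =
      sqrtF a b e * ι v := by
    rw [Affine.addY, Affine.negAddY, hu, hslope]
    simp only [Affine.negY, shortW, WeierstrassCurve.map, map_zero, zero_mul, sub_zero, v, map_neg,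
      map_add, map_sub, map_mul, map_one]
    ring
  refine ⟨u, v, hu ▸ hv ▸ Affine.nonsingular_add hP hP hne, ?_, ?_⟩
  · simp only [Affine.Point.some.injEq]
    exact ⟨hu, hv⟩
  · have hdd := rDer_cubicAt a b e X₀
    rw [rDer_X, mul_one] at hdd
    have hC2 : rDer (2 : RatFunc k) = 0 := by
      rw [← map_ofNat (RatFunc.C (K := k)) 2]; exact rDer_C _
    simp only [u, v, m, pow_two, rDer_sub, rDer_mul, rDer_C, rDer_X, hC2, hdd,
      rDer_div _ _ (mul_ne_zero h2' hd), cubicAt', rDer_add,
      show (3 : RatFunc k) = RatFunc.C 3 from (map_ofNat _ 3).symm]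
    rw [map_ofNat]
    field_simp
    simp only [cubicAt]
    ring

theorem IsMultiple.add_generic {δ : RatFunc k} (h2 : (2 : k) ≠ 0)
    {P : (genW a b e).toAffine.Point} (hm : IsMultiple a b e δ P) (hP2 : P + P ≠ 0)
    {hP : (genW a b e).toAffine.Nonsingular (algebraMap (RatFunc k) (GenField k) X₀) (sqrtF a b e)}
    (hne1 : P + Affine.Point.some _ _ hP ≠ 0) (hne2 : P ≠ Affine.Point.some _ _ hP) :
    IsMultiple a b e (δ + 1) (P + Affine.Point.some _ _ hP) := by
  obtain ⟨u₁, v₁, h₁, rfl, hD⟩ := hm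
  have hd := cubicAt_X_ne_zero a b e
  set ι := algebraMap (RatFunc k) (GenField k)
  have hv0 : v₁ ≠ 0 := by
    intro h0
    refine hP2 (Affine.Point.add_self_of_Y_eq ?_)
    simp [h0, Affine.negY, shortW]
  have hx : ι u₁ ≠ ι X₀ := by
    intro h
    rcases Affine.Y_eq_of_X_eq h₁.1 hP.1 h with hy | hy
    · exact hne2 (by simp only [Affine.Point.some.injEq]; exact ⟨h, hy⟩)
    · exact hne1 (Affine.Point.add_of_Y_eq h hy)
  have hu0 : u₁ - X₀ ≠ 0 := fun h => hx (congrArg ι (sub_eq_zero.1 h))
  have hne : ¬ (ι u₁ = ι X₀ ∧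
      sqrtF a b e * ι v₁ = (genW a b e).toAffine.negY (ι X₀) (sqrtF a b e)) := fun h => hx h.1
  rw [Affine.Point.add_of_X_ne hx]
  set m : RatFunc k := (v₁ - 1) / (u₁ - X₀)
  have hslope : (genW a b e).toAffine.slope (ι u₁) (ι X₀) (sqrtF a b e * ι v₁) (sqrtF a b e) =
      sqrtF a b e * ι m := by
    rw [Affine.slope_of_X_ne hx]
    simp only [m, map_div₀, map_sub, map_one]
    rw [mul_div_assoc', mul_sub, mul_one]
  set u : RatFunc k := d₀ * m ^ 2 - RatFunc.C a - u₁ - X₀
  set v : RatFunc k := -(m * (u - u₁) + v₁)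
  have hu : (genW a b e).toAffine.addX (ι u₁) (ι X₀)
      ((genW a b e).toAffine.slope (ι u₁) (ι X₀) (sqrtF a b e * ι v₁) (sqrtF a b e)) = ι u := by
    rw [hslope]
    simp only [Affine.addX, shortW, WeierstrassCurve.map, map_zero, zero_mul, add_zero, u,
      RingHom.comp_apply, map_sub, map_mul, map_pow, mul_pow, sqrtF_sq, ι]
  have hv : (genW a b e).toAffine.addY (ι u₁) (ι X₀) (sqrtF a b e * ι v₁)
      ((genW a b e).toAffine.slope (ι u₁) (ι X₀) (sqrtF a b e * ι v₁) (sqrtF a b e)) =
      sqrtF a b e * ι v := by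
    rw [Affine.addY, Affine.negAddY, hu, hslope]
    simp only [Affine.negY, shortW, WeierstrassCurve.map, map_zero, zero_mul, sub_zero, v, map_neg,
      map_add, map_sub, map_mul]
    ring
  refine ⟨u, v, hu ▸ hv ▸ Affine.nonsingular_add h₁ hP hne, ?_, ?_⟩
  · simp only [Affine.Point.some.injEq]
    exact ⟨hu, hv⟩
  · have heq := equation_rat h₁.1
    have hdd := rDer_cubicAt a b e X₀
    rw [rDer_X, mul_one] at hdd
    have h2' : (2 : RatFunc k) ≠ 0 := by
      rw [← map_ofNat (RatFunc.C (K := k)) 2]; exact (_root_.map_ne_zero _).2 h2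
    have hDv : rDer v₁ = (cubicAt' a b u₁ * δ - cubicAt' a b X₀ * v₁) / (2 * d₀) := by
      have h := congrArg rDer heq
      simp only [pow_two, rDer_mul, rDer_cubicAt, rDer_X, mul_one, hD] at h
      rw [eq_div_iff (mul_ne_zero h2' hd)]
      refine mul_left_cancel₀ hv0 ?_
      linear_combination h
    have hone : rDer (1 : RatFunc k) = 0 := by rw [← map_one (RatFunc.C (K := k))]; exact rDer_C _
    have hDm : rDer m = ((cubicAt' a b u₁ * δ - cubicAt' a b X₀ * v₁) / (2 * d₀) * (u₁ - X₀) -
        (v₁ - 1) * (δ * v₁ - 1)) / (u₁ - X₀) ^ 2 := by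
      rw [rDer_div _ _ hu0, rDer_sub, rDer_sub, hD, hDv, rDer_X, hone, sub_zero]
    simp only [u, v, pow_two, rDer_sub, rDer_mul, rDer_C, rDer_X, hdd, hD, hDm]
    simp only [m]
    field_simp
    simp only [cubicAt, cubicAt'] at heq ⊢
    linear_combination (2 * (v₁ - 1) * (1 - δ)) * heq

end mult

variable {a b e : k}

theorem natDegree_Φ_eq (W : WeierstrassCurve k) (n : ℕ) : (W.Φ n).natDegree = n ^ 2 := by
  have := W.natDegree_Φ (n : ℤ)
  rwa [Int.natAbs_natCast] at this

/-- The division polynomial of a nonzero index of an elliptic curve is nonzero. -/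
theorem ΨSq_ne_zero_elliptic [IsAlgClosed k] [DecidableEq k] (W : WeierstrassCurve k) [W.IsElliptic]
    {n : ℕ} (hn : n ≠ 0) : W.ΨSq n ≠ 0 := by
  intro h0
  obtain ⟨x, hx⟩ := IsAlgClosed.exists_root (W.Φ n) (by
    rw [degree_eq_natDegree (W.Φ_ne_zero _), natDegree_Φ_eq]
    exact_mod_cast (pow_ne_zero 2 hn))
  refine numDen_ne_zero W n x (funext fun i => ?_)
  fin_cases i
  · exact hx
  · simp [numDen, h0]

/-- **In characteristic `p` the division polynomial of index `p` has derivative zero.** -/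
theorem derivative_preΨ'_char {p : ℕ} [hp : Fact p.Prime] [CharP k p] [IsAlgClosed k]
    (hp2 : p ≠ 2) [hW : (shortW a b e).IsElliptic] :
    derivative ((shortW a b e).preΨ' p) = 0 ∧ (shortW a b e).preΨ' p ≠ 0 := by
  classical
  have h2 : (2 : k) ≠ 0 := Ring.two_ne_zero (by rw [ringChar.eq k p]; exact hp2)
  have hp3 : 3 ≤ p := by
    have := hp.out.two_le
    omega
  have hodd : ¬ Even p := Nat.not_even_iff_odd.2 (hp.out.odd_of_ne_two hp2)
  set W := shortW a b e
  have hΨ : W.ΨSq p = W.preΨ' p ^ 2 := by rw [ΨSq_ofNat, if_neg hodd, mul_one]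
  have hΨ0 : W.ΨSq p ≠ 0 := ΨSq_ne_zero_elliptic W hp.out.ne_zero
  have hψ0 : W.preΨ' p ≠ 0 := fun h => hΨ0 (by rw [hΨ, h, zero_pow two_ne_zero])
  refine ⟨?_, hψ0⟩
  set ι := algebraMap (RatFunc k) (GenField k)
  set G := genW a b e
  haveI : G.IsElliptic := inferInstanceAs ((shortW a b e).map (toGen k)).IsElliptic
  have hP : G.toAffine.Nonsingular (ι RatFunc.X) (sqrtF a b e) := by
    refine Affine.equation_iff_nonsingular.mp ?_
    rw [Affine.equation_iff]
    simp only [G, shortW, WeierstrassCurve.map, map_zero, zero_mul, add_zero, RingHom.comp_apply]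
    rw [sqrtF_sq, cubicAt, map_add, map_add, map_add, map_mul, map_mul, map_pow, map_pow]
  set P : G.toAffine.Point := Affine.Point.some _ _ hP
  have heval : ∀ Q : k[X],
      (Q.map (toGen k)).eval (ι RatFunc.X) = ι (algebraMap k[X] (RatFunc k) Q) := fun Q => by
    rw [eval_map, ← RingHom.comp_apply]
    induction Q using Polynomial.induction_on' with
    | add x y hx hy => rw [eval₂_add, map_add, hx, hy]
    | monomial i c =>
      rw [eval₂_monomial, RingHom.comp_apply, RingHom.comp_apply, ← C_mul_X_pow_eq_monomial,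
        map_mul, map_pow, RatFunc.algebraMap_C, RatFunc.algebraMap_X, map_mul, map_pow]
  have hnP : ∀ n : ℕ, n ≠ 0 → W.ΨSq n ≠ 0 → n • P ≠ 0 := fun n _ hΨn h => by
    rw [nsmul_eq_zero_iff hP, map_ΨSq, heval, map_eq_zero_iff _ ι.injective] at h
    exact hΨn (FaithfulSMul.algebraMap_injective k[X] (RatFunc k) (by rw [h, map_zero]))
  have hlt : ∀ n : ℕ, n ≠ 0 → n ≤ p → n • P ≠ 0 := fun n hn _ =>
    hnP n hn (ΨSq_ne_zero_elliptic W hn)
  have hmult : ∀ n : ℕ, 2 ≤ n → n ≤ p → IsMultiple a b e n (n • P) := by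
    intro n h1 h3
    induction n, h1 using Nat.le_induction with
    | base =>
      rw [two_nsmul, Nat.cast_ofNat]
      exact isMultiple_two h2
    | succ n hn ih =>
      rw [succ_nsmul, Nat.cast_succ]
      refine (ih (by omega)).add_generic h2 ?_ ?_ ?_
      · rw [← add_nsmul]
        exact hnP _ (by omega) (ΨSq_ne_zero_elliptic W (by omega))
      · rw [← succ_nsmul]
        exact hlt _ (by omega) h3
      · intro h
        obtain ⟨j, rfl⟩ : ∃ j, n = j + 1 := ⟨n - 1, by omega⟩
        rw [succ_nsmul, add_eq_right] at h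
        exact hlt j (by omega) (by omega) h
  obtain ⟨u, v, h', hPe, hD⟩ := hmult p (by omega) le_rfl
  haveI : CharP (RatFunc k) p := charP_of_injective_ringHom RatFunc.C_injective p
  rw [CharP.cast_eq_zero, zero_mul] at hD
  have hx : ι u = ι (algebraMap k[X] (RatFunc k) (W.Φ p) / algebraMap k[X] (RatFunc k) (W.ΨSq p)) := by
    have h1 := xc_zsmul hP (p : ℤ) (by rw [natCast_zsmul]; exact hlt p hp.out.ne_zero le_rfl)
    rw [natCast_zsmul, show xc (p • P) = ι u by rw [hPe, xc_some], map_Φ, map_ΨSq, heval, heval]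
      at h1
    rw [map_div₀]
    exact h1
  have hu := ι.injective hx
  have hψι : algebraMap k[X] (RatFunc k) (W.ΨSq p) ≠ 0 := RatFunc.algebraMap_ne_zero hΨ0
  rw [hu, rDer_div _ _ hψι, rDer_poly, rDer_poly, div_eq_zero_iff,
    or_iff_left (pow_ne_zero _ hψι), ← map_mul, ← map_mul, ← map_sub,
    map_eq_zero_iff _ (FaithfulSMul.algebraMap_injective k[X] (RatFunc k)), sub_eq_zero] at hD
  have hcop : IsCoprime (W.Φ p) (W.ΨSq p) := by
    refine (Polynomial.isCoprime_iff_aeval_ne_zero_of_isAlgClosed k k _ _).mpr fun r => ?_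
    by_contra hcon
    push Not at hcon
    refine numDen_ne_zero W p r (funext fun i => ?_)
    fin_cases i
    · simpa [numDen] using hcon.1
    · simpa [numDen] using hcon.2
  have hdvd : W.ΨSq p ∣ derivative (W.ΨSq p) :=
    hcop.symm.dvd_of_dvd_mul_left ⟨derivative (W.Φ p), by rw [← hD]; ring⟩
  have hder : derivative (W.ΨSq p) = 0 := by
    by_contra hne
    exact absurd (degree_le_of_dvd hdvd hne) (not_le.2 (degree_derivative_lt hΨ0))
  rw [hΨ, pow_two, derivative_mul, mul_comm (derivative _), ← two_mul, mul_eq_zero] at hder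
  refine (mul_eq_zero.1 (hder.resolve_left ?_)).resolve_left hψ0
  rw [← C_ofNat, C_eq_zero]
  exact h2

end FA.Carayol

end
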