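import Fermat.Agent.Carayol.Hasse.Special
import Fermat.Agent.Carayol.Hasse.Count
import Mathlib.Algebra.Algebra.ZMod
import Mathlib.FieldTheory.AlgebraicClosure
import Mathlib.FieldTheory.Finite.GaloisField
import Mathlib.GroupTheory.Perm.Cycle.Type

/-!
# The Hasse invariant of the Legendre family

Counting points over finite fields modulo `q` identifies the roots of the Hasse invariant with those
of Deuring's polynomial.
-/

set_option autoImplicit false
set_option linter.unusedSectionVars false
set_option linter.style.haveILetI false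

noncomputable section

namespace FA.Carayol

open WeierstrassCurve Polynomial FA.EC

variable {k : Type} [Field k] {q : ℕ} [hq : Fact q.Prime] [CharP k q] [IsAlgClosed k]

/-- The subfield of `k` with `q ^ r` elements. -/
def qField (k : Type) [Field k] (q : ℕ) [Fact q.Prime] [CharP k q] (r : ℕ) : Subfield k :=
  RingHom.eqLocusField (iterateFrobenius k q r) (RingHom.id k)

theorem mem_qField {r : ℕ} {x : k} : x ∈ qField k q r ↔ x ^ q ^ r = x := Iff.rfl

theorem qField_coe [DecidableEq k] {r : ℕ} (hr : r ≠ 0) :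
    (qField k q r : Set k) = ↑((X ^ (q ^ r) - X : k[X]).roots.toFinset) := by
  ext x
  have h0 : (X ^ (q ^ r) - X : k[X]) ≠ 0 :=
    FiniteField.X_pow_card_sub_X_ne_zero k (Nat.one_lt_pow hr hq.out.one_lt)
  simp [mem_qField, mem_roots h0, sub_eq_zero]

theorem card_roots_frob [DecidableEq k] {r : ℕ} (hr : r ≠ 0) :
    (X ^ (q ^ r) - X : k[X]).roots.toFinset.card = q ^ r := by
  have h0 : (X ^ (q ^ r) - X : k[X]) ≠ 0 :=
    FiniteField.X_pow_card_sub_X_ne_zero k (Nat.one_lt_pow hr hq.out.one_lt)
  rw [Multiset.toFinset_card_of_nodup ((nodup_roots_iff_of_splits h0 (IsAlgClosed.splits _)).2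
      (galois_poly_separable q (q ^ r) (dvd_pow_self q hr))),
    IsAlgClosed.card_roots_eq_natDegree,
    FiniteField.X_pow_card_sub_X_natDegree_eq k (Nat.one_lt_pow hr hq.out.one_lt)]

theorem natCard_qField [DecidableEq k] {r : ℕ} (hr : r ≠ 0) : Nat.card (qField k q r) = q ^ r := by
  show Nat.card (qField k q r : Set k) = _
  rw [Nat.card_coe_set_eq, qField_coe hr, Set.ncard_coe_finset, card_roots_frob hr]

theorem eval_hPoly_map {R S : Type*} [CommRing R] [CommRing S] (f : R →+* S) (h : ℕ) (c : R) :
    (hPoly h S).eval (f c) = f ((hPoly h R).eval c) := by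
  rw [← hPoly_map f, eval_map, eval₂_at_apply]

theorem legendre_map {R S : Type*} [CommRing R] [CommRing S] (f : R →+* S) (c : R) :
    (legendre c).map f = legendre (f c) := by
  ext <;> simp [legendre]

/-- `Π_{i < 2j} u ^ (q ^ i) = (u ^ (1 + q)) ^ j` when `u ^ (q²) = u`. -/
theorem prod_frob_pow {F : Type} [CommRing F] {u : F} (hu : u ^ q ^ 2 = u) :
    ∀ j : ℕ, ∏ i ∈ Finset.range (2 * j), u ^ q ^ i = (u * u ^ q) ^ j := by
  intro j
  induction j with
  | zero => simp
  | succ j ih =>
    have h2 : ∀ i : ℕ, u ^ q ^ (2 * i) = u := fun i => by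
      induction i with
      | zero => simp
      | succ i ih => rw [mul_add, mul_one, pow_add, pow_mul, ih, hu]
    rw [mul_add, mul_one, Finset.prod_range_succ, Finset.prod_range_succ, ih,
      pow_succ q (2 * j), pow_mul u, h2 j]
    ring

/-- **Some member of the family has a point of order `q`.** -/
theorem exists_eval_hasse_ne_zero (hq2 : q ≠ 2) : ∃ c : k, (hasse q k).eval c ≠ 0 := by
  classical
  set h := (q - 1) / 2
  have hqh : q = 2 * h + 1 := odd_half hq2
  have hH0 : hPoly h k ≠ 0 := fun e => by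
    have := congrArg (fun p : k[X] => p.eval 0) e
    simp only [eval_zero_hPoly, eval_zero] at this
    exact one_ne_zero this
  obtain ⟨c, hc, hcbad⟩ : ∃ c ∈ (X ^ (q ^ 2) - X : k[X]).roots.toFinset,
      c ∉ (insert 0 (insert 1 (hPoly h k).roots.toFinset) : Finset k) := by
    refine Finset.exists_mem_notMem_of_card_lt_card ?_
    rw [card_roots_frob two_ne_zero]
    have h1 : (hPoly h k).roots.toFinset.card ≤ h :=
      (Multiset.toFinset_card_le _).trans ((card_roots' _).trans (hPoly_natDegree hqh).le)
    have h2 := Finset.card_insert_le (1 : k) (hPoly h k).roots.toFinset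
    have h3 := Finset.card_insert_le (0 : k) (insert 1 (hPoly h k).roots.toFinset)
    have h4 := hq.out.two_le
    nlinarith
  simp only [Finset.mem_insert, Multiset.mem_toFinset, mem_roots hH0, not_or, IsRoot] at hcbad
  obtain ⟨hc0, hc1, hcH⟩ := hcbad
  have hc2 : c ^ q ^ 2 = c := by
    rw [Multiset.mem_toFinset] at hc
    simpa [sub_eq_zero] using (mem_roots'.1 hc).2
  set r := 2 * (q - 1)
  have hr : r ≠ 0 := by
    have := hq.out.two_le
    omega
  set F := qField k q r
  have hcF : c ∈ F := by
    rw [mem_qField]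
    have : ∀ i : ℕ, c ^ q ^ (2 * i) = c := fun i => by
      induction i with
      | zero => simp
      | succ i ih => rw [mul_add, mul_one, pow_add, pow_mul, ih, hc2]
    exact this (q - 1)
  haveI : Finite F := by
    refine Nat.finite_of_card_ne_zero ?_
    rw [natCard_qField hr]
    exact pow_ne_zero _ hq.out.ne_zero
  letI : Fintype F := Fintype.ofFinite F
  haveI : CharP F q := RingHom.charP F.subtype F.subtype.injective q
  have hcard : Fintype.card F = q ^ r := by rw [← Nat.card_eq_fintype_card, natCard_qField hr]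
  set c' : F := ⟨c, hcF⟩
  have hs : F.subtype c' = c := rfl
  haveI : (legendre c').IsElliptic := isElliptic_legendre (two_ne_zero_charP hq2)
    (fun e => hc0 (congrArg Subtype.val e)) (fun e => hc1 (congrArg Subtype.val e))
  haveI : (legendre c).IsElliptic := isElliptic_legendre (two_ne_zero_charP hq2) hc0 hc1
  have hcount := natCard_point_legendre (F := F) hqh hcard (c := c')
  set u : F := (-1) ^ h * (hPoly h F).eval c'
  have hu0 : u ≠ 0 := by
    refine mul_ne_zero (pow_ne_zero _ (neg_ne_zero.2 one_ne_zero)) fun e => hcH ?_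
    rw [← hs, eval_hPoly_map, e, map_zero]
  have hu2 : u ^ q ^ 2 = u := by
    rw [← iterateFrobenius_def, map_mul, map_pow, map_neg, map_one, ← eval_hPoly_map,
      show iterateFrobenius F q 2 c' = c' from Subtype.ext hc2]
  have hprod : ∏ i ∈ Finset.range r, u ^ q ^ i = 1 := by
    rw [prod_frob_pow hu2]
    refine mul_left_cancel₀ (mul_ne_zero hu0 (pow_ne_zero q hu0)) ?_
    rw [mul_one, ← pow_succ', Nat.sub_add_cancel hq.out.one_le, mul_pow, ← pow_mul, ← pow_two q, hu2,
      mul_comm]
  rw [hprod, sub_self, CharP.cast_eq_zero_iff F q] at hcount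
  haveI : Finite (legendre c').toAffine.Point :=
    Finite.of_injective (fun P => (match P with
      | .zero => none
      | .some x y _ => some (x, y) : Option (F × F))) fun P Q h => by
        rcases P with _ | ⟨x, y, hxy⟩ <;> rcases Q with _ | ⟨x', y', hxy'⟩ <;> simp_all <;> rfl
  obtain ⟨P, hP⟩ := exists_prime_addOrderOf_dvd_card' q hcount
  have hP0 : P ≠ 0 := fun e => by
    rw [e, addOrderOf_zero] at hP
    exact hq.out.one_lt.ne hP
  obtain ⟨x, y, hxy, rfl⟩ := exists_some_of_ne_zero hP0
  have hx : ((legendre c').preΨ' q).eval x = 0 := by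
    have h1 := (nsmul_eq_zero_iff hxy q).1 (hP ▸ addOrderOf_nsmul_eq_zero _)
    rw [ΨSq_ofNat, if_neg (Nat.not_even_iff_odd.2 ⟨h, hqh⟩), mul_one, eval_pow] at h1
    exact eq_zero_of_pow_eq_zero h1
  refine ⟨c, eval_hasse_ne_zero_of_root hq2 (x := F.subtype x) ?_⟩
  rw [← hs, ← legendre_map, map_preΨ', eval_map, eval₂_at_apply, hx, map_zero]

/-- **A root of Deuring's polynomial is a root of the Hasse invariant.** -/
theorem eval_hasse_eq_zero_of_hPoly (hq2 : q ≠ 2) {c : k}
    (hc : (hPoly ((q - 1) / 2) k).eval c = 0) : (hasse q k).eval c = 0 := by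
  classical
  set h := (q - 1) / 2
  have hqh : q = 2 * h + 1 := odd_half hq2
  have hc0 : c ≠ 0 := fun e => one_ne_zero (eval_zero_hPoly.symm.trans (e ▸ hc))
  have hc1 : c ≠ 1 := fun e => eval_one_hPoly_ne_zero hqh (e ▸ hc)
  haveI : (legendre c).IsElliptic := isElliptic_legendre (two_ne_zero_charP hq2) hc0 hc1
  by_contra hne
  obtain ⟨x, hx⟩ : ∃ x, ((legendre c).preΨ' q).eval x = 0 := by
    by_contra hno
    push Not at hno
    refine hne ?_
    have hd : ((legendre c).preΨ' q).natDegree = 0 := by
      by_contra hd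
      obtain ⟨x, hx⟩ := IsAlgClosed.exists_root _
        (fun h => hd (natDegree_eq_of_degree_eq_some h) : ((legendre c).preΨ' q).degree ≠ 0)
      exact hno x hx
    rw [hasse, eval_coeff_psiQ]
    refine coeff_eq_zero_of_natDegree_lt ?_
    rw [hd]
    exact Nat.mul_pos hq.out.pos (by have := hq.out.two_le; omega)
  obtain ⟨y, hy⟩ := exists_nonsingular (legendre c) x
  letI : Algebra (ZMod q) k := ZMod.algebra k q
  set H : Polynomial (ZMod q) := hPoly h (ZMod q)
  have hH : H ≠ 0 := fun e => by
    have := congrArg (fun p : (ZMod q)[X] => p.eval 0) e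
    simp only [H, eval_zero_hPoly, eval_zero] at this
    exact one_ne_zero this
  set K₀ := algebraicClosure (ZMod q) k
  have hcint : IsIntegral (ZMod q) c := IsAlgebraic.isIntegral ⟨H, hH, by
    rw [aeval_def, ← eval_map, hPoly_map, hc]⟩
  have hcK : c ∈ K₀ := mem_algebraicClosure_iff'.2 hcint
  haveI : Algebra.IsIntegral (ZMod q) K₀ := Algebra.IsAlgebraic.isIntegral
  have hxint : IsIntegral (ZMod q) x := by
    refine isIntegral_trans (A := K₀) x (IsAlgebraic.isIntegral
      ⟨(legendre (⟨c, hcK⟩ : K₀)).preΨ' q, fun e => ?_, ?_⟩)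
    · refine (expand_contract_preΨ' hq2 (c := c)).2.1 ?_
      rw [show c = algebraMap K₀ k ⟨c, hcK⟩ from rfl, ← legendre_map, map_preΨ', e,
        Polynomial.map_zero]
    · rw [aeval_def, ← eval_map, ← map_preΨ', legendre_map]
      exact hx
  have hxK : x ∈ K₀ := mem_algebraicClosure_iff'.2 hxint
  have hyint : IsIntegral (ZMod q) y := by
    refine isIntegral_trans (A := K₀) y ⟨X ^ 2 - C (⟨x, hxK⟩ * (⟨x, hxK⟩ - 1) * (⟨x, hxK⟩ - ⟨c, hcK⟩)),
      monic_X_pow_sub_C _ two_ne_zero, ?_⟩
    have he := (Affine.equation_iff _ _).1 hy.1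
    simp only [legendre] at he
    rw [eval₂_sub, eval₂_X_pow, eval₂_C]
    show y ^ 2 - x * (x - 1) * (x - c) = 0
    linear_combination he
  set F : IntermediateField (ZMod q) k := IntermediateField.adjoin (ZMod q) {c, x, y}
  haveI : FiniteDimensional (ZMod q) F := IntermediateField.finiteDimensional_adjoin fun z hz => by
    simp only [Set.mem_insert_iff, Set.mem_singleton_iff] at hz
    rcases hz with rfl | rfl | rfl <;> assumption
  haveI : Finite F := Module.finite_of_finite (ZMod q)
  letI : Fintype F := Fintype.ofFinite F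
  haveI : CharP F q := charP_of_injective_ringHom (algebraMap (ZMod q) F).injective q
  obtain ⟨n, -, hn⟩ := FiniteField.card F q
  set c' : F := ⟨c, IntermediateField.subset_adjoin _ _ (by simp)⟩
  set x' : F := ⟨x, IntermediateField.subset_adjoin _ _ (by simp)⟩
  set y' : F := ⟨y, IntermediateField.subset_adjoin _ _ (by simp)⟩
  haveI : (legendre c').IsElliptic := isElliptic_legendre (two_ne_zero_charP hq2)
    (fun e => hc0 (congrArg Subtype.val e)) (fun e => hc1 (congrArg Subtype.val e))
  have hxy : (legendre c').toAffine.Nonsingular x' y' := by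
    refine Affine.equation_iff_nonsingular.1 ?_
    have he := (Affine.equation_iff _ _).1 hy.1
    rw [Affine.equation_iff]
    simp only [legendre] at he ⊢
    exact Subtype.ext he
  have hq' : (q : ℕ) • Affine.Point.some x' y' hxy = 0 := by
    rw [nsmul_eq_zero_iff hxy, ΨSq_ofNat, if_neg (Nat.not_even_iff_odd.2 ⟨h, hqh⟩), mul_one,
      eval_pow, pow_eq_zero_iff two_ne_zero]
    refine (algebraMap F k).injective ?_
    rw [← eval₂_at_apply, ← eval_map, ← map_preΨ', legendre_map, map_zero]
    exact hx
  have hdvd : q ∣ Nat.card (legendre c').toAffine.Point := by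
    have h1 := addOrderOf_dvd_natCard (Affine.Point.some x' y' hxy)
    rwa [addOrderOf_eq_prime hq' (Affine.Point.some_ne_zero hxy)] at h1
  have hcount := natCard_point_legendre (F := F) hqh hn (c := c')
  rw [(CharP.cast_eq_zero_iff F q _).2 hdvd, Finset.prod_eq_zero (Finset.mem_range.2 n.pos) (by
    have e : (hPoly h F).eval c' = 0 := (algebraMap F k).injective (by
      rw [← eval_hPoly_map, map_zero]; exact hc)
    rw [e, mul_zero, zero_pow (pow_ne_zero _ hq.out.ne_zero)]), sub_zero] at hcount
  exact zero_ne_one hcount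

/-- The Hasse invariant is Deuring's polynomial up to a constant. -/
theorem exists_hasse_eq (hq2 : q ≠ 2) :
    ∃ a : k, a ≠ 0 ∧ hasse q k = C a * hPoly ((q - 1) / 2) k := by
  classical
  set h := (q - 1) / 2
  have hqh : q = 2 * h + 1 := odd_half hq2
  have hh : 0 < h := by
    have := hq.out.two_le
    omega
  set a := (hasse q k).coeff h
  have hnat : (hasse q k - C a * hPoly h k).natDegree < (hPoly h k).roots.toFinset.card := by
    rw [card_roots_hPoly (k := k) hqh]
    refine lt_of_le_of_lt (natDegree_le_iff_coeff_eq_zero.2 fun i hi => ?_) (Nat.sub_lt hh one_pos)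
    rw [coeff_sub, coeff_C_mul, coeff_hPoly]
    rcases Nat.lt_or_ge h i with hlt | hge
    · rw [coeff_eq_zero_of_natDegree_lt (lt_of_le_of_lt (natDegree_hasse_le hq2) hlt),
        Nat.choose_eq_zero_of_lt hlt, Nat.cast_zero]
      ring
    · obtain rfl : i = h := by omega
      rw [Nat.choose_self, Nat.cast_one]
      ring
  have heq : hasse q k = C a * hPoly h k :=
    sub_eq_zero.1 (eq_zero_of_natDegree_lt_card_of_eval_eq_zero' _ _ (fun c hc => by
      rw [Multiset.mem_toFinset, mem_roots'] at hc
      have hc' : (hPoly h k).eval c = 0 := hc.2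
      rw [eval_sub, eval_mul, hc', mul_zero, sub_zero]
      exact eval_hasse_eq_zero_of_hPoly hq2 hc') hnat)
  refine ⟨a, fun ha => ?_, heq⟩
  obtain ⟨c, hc⟩ := exists_eval_hasse_ne_zero (k := k) (q := q) hq2
  exact hc (by rw [heq, ha, map_zero, zero_mul, eval_zero])

/-- **The facts about the Hasse invariant.** -/
theorem hasseHolds (q : ℕ) [Fact q.Prime] : HasseHolds q := by
  intro hq2 k _ _ _
  classical
  have hqh : q = 2 * ((q - 1) / 2) + 1 := odd_half hq2
  obtain ⟨a, ha, heq⟩ := exists_hasse_eq (k := k) hq2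
  refine ⟨fun i hi => coeff_psiQ_eq_zero hq2 hi, natDegree_psiQ_le hq2, ?_, ?_, ?_,
    fun c hc0 hc1 hc => ?_⟩
  · have hne : hasse q k ≠ 0 := fun e => by
      have := congrArg (fun p : k[X] => p.eval 0) e
      simp only [heq, eval_mul, eval_C, eval_zero_hPoly, mul_one, eval_zero] at this
      exact ha this
    refine (nodup_roots_iff_of_splits hne (IsAlgClosed.splits _)).1 ?_
    rw [heq, roots_C_mul _ ha, Multiset.nodup_iff_count_le_one]
    exact hPoly_roots_simple hqh
  · rw [heq, eval_mul, eval_C, eval_zero_hPoly, mul_one]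
    exact ha
  · rw [heq, eval_mul, eval_C]
    exact mul_ne_zero ha (eval_one_hPoly_ne_zero hqh)
  · haveI := isElliptic_legendre (two_ne_zero_charP hq2) hc0 hc1
    exact only_constant_of_eval_hasse_eq_zero hq2 hc

end FA.Carayol

end
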