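import Mathlib.FieldTheory.RatFunc.AsPolynomial
import Mathlib.Algebra.Polynomial.Derivative
import Mathlib.Tactic.FieldSimp
import Mathlib.Tactic.LinearCombination

/-!
# The derivative of a rational function
-/

set_option autoImplicit false

noncomputable section

namespace FA.Carayol

open Polynomial

variable {k : Type*} [Field k]

local notation "ι" => algebraMap (Polynomial k) (RatFunc k)

/-- The derivative. -/
def rDer (r : RatFunc k) : RatFunc k :=
  (ι (derivative r.num) * ι r.denom - ι r.num * ι (derivative r.denom)) / ι r.denom ^ 2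

theorem rDer_eq {r : RatFunc k} {p q : k[X]} (hq : q ≠ 0) (h : r * ι q = ι p) :
    rDer r = (ι (derivative p) * ι q - ι p * ι (derivative q)) / ι q ^ 2 := by
  have hq' : ι q ≠ 0 := RatFunc.algebraMap_ne_zero hq
  have hd : ι r.denom ≠ 0 := RatFunc.algebraMap_ne_zero r.denom_ne_zero
  have hr : r * ι r.denom = ι r.num := by
    nth_rw 1 [← RatFunc.num_div_denom r]
    rw [div_mul_cancel₀ _ hd]
  have hcross : r.num * q = p * r.denom := FaithfulSMul.algebraMap_injective k[X] (RatFunc k) (by
    rw [map_mul, map_mul, ← hr, ← h]; ring)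
  have h2 := congrArg (fun s => ι (derivative s)) hcross
  simp only [derivative_mul, map_add, map_mul] at h2
  have h3 := congrArg ι hcross
  simp only [map_mul] at h3
  rw [rDer, div_eq_div_iff (pow_ne_zero _ hd) (pow_ne_zero _ hq')]
  linear_combination (ι r.denom * ι q) * h2 -
    (ι (derivative r.denom) * ι q + ι r.denom * ι (derivative q)) * h3

theorem rDer_poly (p : k[X]) : rDer (ι p) = ι (derivative p) := by
  rw [rDer_eq (r := ι p) (p := p) (q := 1) one_ne_zero (by simp)]
  simp

theorem rDer_add (r s : RatFunc k) : rDer (r + s) = rDer r + rDer s := by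
  have hd : ι r.denom ≠ 0 := RatFunc.algebraMap_ne_zero r.denom_ne_zero
  have he : ι s.denom ≠ 0 := RatFunc.algebraMap_ne_zero s.denom_ne_zero
  rw [rDer_eq (r := r + s) (p := r.num * s.denom + s.num * r.denom) (q := r.denom * s.denom)
    (mul_ne_zero r.denom_ne_zero s.denom_ne_zero) (by
      nth_rw 1 [← RatFunc.num_div_denom r, ← RatFunc.num_div_denom s]
      simp only [map_mul, map_add]
      field_simp)]
  simp only [rDer, derivative_add, derivative_mul, map_add, map_mul]
  field_simp
  ring

theorem rDer_mul (r s : RatFunc k) : rDer (r * s) = rDer r * s + r * rDer s := by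
  have hd : ι r.denom ≠ 0 := RatFunc.algebraMap_ne_zero r.denom_ne_zero
  have he : ι s.denom ≠ 0 := RatFunc.algebraMap_ne_zero s.denom_ne_zero
  have hr : r = ι r.num / ι r.denom := (RatFunc.num_div_denom r).symm
  have hs : s = ι s.num / ι s.denom := (RatFunc.num_div_denom s).symm
  rw [rDer_eq (r := r * s) (p := r.num * s.num) (q := r.denom * s.denom)
    (mul_ne_zero r.denom_ne_zero s.denom_ne_zero) (by
      nth_rw 1 [hr, hs]
      simp only [map_mul]
      field_simp)]
  simp only [rDer, derivative_mul, map_add, map_mul]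
  conv_rhs => arg 1; arg 2; rw [hs]
  conv_rhs => arg 2; arg 1; rw [hr]
  field_simp
  ring

theorem rDer_zero : rDer (0 : RatFunc k) = 0 := by
  have h := rDer_poly (0 : k[X])
  simpa using h

theorem rDer_C (a : k) : rDer (RatFunc.C a) = 0 := by
  rw [← RatFunc.algebraMap_C, rDer_poly, derivative_C, map_zero]

theorem rDer_X : rDer (RatFunc.X : RatFunc k) = 1 := by
  rw [← RatFunc.algebraMap_X, rDer_poly, derivative_X, map_one]

theorem rDer_neg (r : RatFunc k) : rDer (-r) = -rDer r := by
  have h := rDer_add r (-r)
  rw [add_neg_cancel, rDer_zero] at h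
  linear_combination -h

theorem rDer_sub (r s : RatFunc k) : rDer (r - s) = rDer r - rDer s := by
  rw [sub_eq_add_neg, rDer_add, rDer_neg, ← sub_eq_add_neg]

theorem rDer_div (r s : RatFunc k) (hs : s ≠ 0) :
    rDer (r / s) = (rDer r * s - r * rDer s) / s ^ 2 := by
  have h := rDer_mul (r / s) s
  rw [div_mul_cancel₀ _ hs] at h
  rw [h]
  field_simp
  ring

end FA.Carayol

end
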