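import Fermat.Agent.Carayol.Defs

/-!
# The weight of the division polynomials of the Legendre curve

In `preΨ'ₙ` of `y² = x (x - 1) (x - λ)` the total degree in `(x, λ)` is at most that in `x`.
-/

set_option autoImplicit false
set_option linter.unusedSectionVars false

noncomputable section

namespace FA.Carayol

open Polynomial WeierstrassCurve

variable {k : Type*} [CommRing k]

/-- Total degree at most `d`. -/
def WtLe (d : ℕ) (P : Polynomial (Polynomial k)) : Prop :=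
  ∀ i j, d < i + j → (P.coeff i).coeff j = 0

theorem WtLe.mono {d d' : ℕ} {P : Polynomial (Polynomial k)} (h : WtLe d P) (hd : d ≤ d') :
    WtLe d' P := fun i j hij => h i j (by omega)

theorem WtLe.sub {d : ℕ} {P Q : Polynomial (Polynomial k)} (hP : WtLe d P) (hQ : WtLe d Q) :
    WtLe d (P - Q) := fun i j h => by rw [coeff_sub, coeff_sub, hP i j h, hQ i j h, sub_zero]

theorem WtLe.add {d : ℕ} {P Q : Polynomial (Polynomial k)} (hP : WtLe d P) (hQ : WtLe d Q) :
    WtLe d (P + Q) := fun i j h => by rw [coeff_add, coeff_add, hP i j h, hQ i j h, add_zero]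

theorem WtLe.mul {d e : ℕ} {P Q : Polynomial (Polynomial k)} (hP : WtLe d P) (hQ : WtLe e Q) :
    WtLe (d + e) (P * Q) := fun i j h => by
  rw [coeff_mul, finsetSum_coeff]
  refine Finset.sum_eq_zero fun a ha => ?_
  rw [coeff_mul]
  refine Finset.sum_eq_zero fun b hb => ?_
  rw [Finset.HasAntidiagonal.mem_antidiagonal] at ha hb
  by_cases h1 : d < a.1 + b.1
  · rw [hP _ _ h1, zero_mul]
  · rw [hQ _ _ (by omega), mul_zero]

theorem wtLe_zero (d : ℕ) : WtLe d (0 : Polynomial (Polynomial k)) := fun i j _ => by simp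

theorem wtLe_monomial {d i j : ℕ} (a : k) (h : i + j ≤ d) :
    WtLe d (C (C a * X ^ j) * X ^ i) := fun i' j' h' => by
  rw [coeff_C_mul_X_pow]
  split_ifs with h1
  · rw [coeff_C_mul_X_pow, if_neg]
    omega
  · simp

theorem wtLe_one : WtLe 0 (1 : Polynomial (Polynomial k)) := by
  simpa using wtLe_monomial (k := k) (d := 0) (i := 0) (j := 0) 1 le_rfl

theorem WtLe.pow {d : ℕ} {P : Polynomial (Polynomial k)} (hP : WtLe d P) :
    ∀ n : ℕ, WtLe (n * d) (P ^ n)
  | 0 => by rw [Nat.zero_mul, pow_zero]; exact wtLe_one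
  | n + 1 => by rw [Nat.succ_mul, pow_succ]; exact (hP.pow n).mul hP

/-- Legendre's curve with the parameter as a variable. -/
def legX (k : Type*) [CommRing k] : WeierstrassCurve (Polynomial k) :=
  legendre (X : Polynomial k)

theorem legX_b₂ : (legX k).b₂ = C (-4) + C (-4) * X := by
  simp only [legX, legendre, b₂, map_neg, map_ofNat]
  ring

theorem legX_b₄ : (legX k).b₄ = C 2 * X := by
  simp only [legX, legendre, b₄, map_ofNat]
  ring

theorem legX_b₆ : (legX k).b₆ = 0 := by simp [legX, legendre, b₆]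

theorem legX_b₈ : (legX k).b₈ = C (-1) * X ^ 2 := by
  simp only [legX, legendre, b₈, map_neg, map_one]
  ring

theorem wtLe_Ψ₂Sq : WtLe 3 (legX k).Ψ₂Sq := by
  have e : (legX k).Ψ₂Sq = C (C (4 : k) * X ^ 0) * X ^ 3 + C (C (-4) * X ^ 0) * X ^ 2 +
      C (C (-4) * X ^ 1) * X ^ 2 + C (C (4 : k) * X ^ 1) * X ^ 1 := by
    rw [Ψ₂Sq, legX_b₂, legX_b₄, legX_b₆]
    simp only [map_neg, map_ofNat, map_add, map_mul, map_zero, pow_zero, pow_one, mul_one]
    ring
  rw [e]
  refine (((wtLe_monomial _ ?_).add (wtLe_monomial _ ?_)).add (wtLe_monomial _ ?_)).add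
    (wtLe_monomial _ ?_) <;> omega

theorem wtLe_Ψ₃ : WtLe 4 (legX k).Ψ₃ := by
  have e : (legX k).Ψ₃ = C (C (3 : k) * X ^ 0) * X ^ 4 + C (C (-4) * X ^ 0) * X ^ 3 +
      C (C (-4) * X ^ 1) * X ^ 3 + C (C (6 : k) * X ^ 1) * X ^ 2 + C (C (-1) * X ^ 2) * X ^ 0 := by
    rw [Ψ₃, legX_b₂, legX_b₄, legX_b₆, legX_b₈]
    simp only [map_neg, map_ofNat, map_add, map_mul, map_zero, map_one, map_pow, pow_zero, pow_one,
      mul_one]
    ring
  rw [e]
  refine ((((wtLe_monomial _ ?_).add (wtLe_monomial _ ?_)).add (wtLe_monomial _ ?_)).add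
    (wtLe_monomial _ ?_)).add (wtLe_monomial _ ?_) <;> omega

theorem wtLe_preΨ₄ : WtLe 6 (legX k).preΨ₄ := by
  have e : (legX k).preΨ₄ = C (C (2 : k) * X ^ 0) * X ^ 6 + C (C (-4) * X ^ 0) * X ^ 5 +
      C (C (-4) * X ^ 1) * X ^ 5 + C (C (10 : k) * X ^ 1) * X ^ 4 + C (C (-10) * X ^ 2) * X ^ 2 +
      C (C (4 : k) * X ^ 2) * X ^ 1 + C (C (4 : k) * X ^ 3) * X ^ 1 +
      C (C (-2) * X ^ 3) * X ^ 0 := by
    rw [preΨ₄, legX_b₂, legX_b₄, legX_b₆, legX_b₈]
    simp only [map_neg, map_ofNat, map_add, map_sub, map_mul, map_zero, map_one, map_pow, pow_zero,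
      pow_one, mul_one]
    ring
  rw [e]
  refine (((((((wtLe_monomial _ ?_).add (wtLe_monomial _ ?_)).add (wtLe_monomial _ ?_)).add
    (wtLe_monomial _ ?_)).add (wtLe_monomial _ ?_)).add (wtLe_monomial _ ?_)).add
      (wtLe_monomial _ ?_)).add (wtLe_monomial _ ?_) <;> omega

/-- The degree of `preΨ'ₙ`. -/
def preDeg (n : ℕ) : ℕ := (n ^ 2 - if Even n then 4 else 1) / 2

theorem two_preDeg {n : ℕ} (hn : n ≠ 0) :
    2 * (preDeg n : ℤ) = (n : ℤ) ^ 2 - if Even n then 4 else 1 := by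
  rcases n.even_or_odd' with ⟨j, rfl | rfl⟩
  · obtain ⟨i, rfl⟩ : ∃ i, j = i + 1 := ⟨j - 1, by omega⟩
    push_cast [preDeg, show (2 * (i + 1)) ^ 2 = 2 * (2 * i * (i + 2)) + 4 by ring1, even_two_mul,
      Nat.add_sub_cancel, Nat.mul_div_cancel_left _ two_pos]
    ring1
  · push_cast [preDeg, show (2 * j + 1) ^ 2 = 2 * (2 * j * (j + 1)) + 1 by ring1,
      j.not_even_two_mul_add_one, Nat.add_sub_cancel, Nat.mul_div_cancel_left _ two_pos]
    ring1

theorem preDeg_rec (m : ℕ) :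
    (preDeg (2 * (m + 3)) = 2 * preDeg (m + 2) + preDeg (m + 3) + preDeg (m + 5) ∧
    preDeg (2 * (m + 3)) = preDeg (m + 1) + preDeg (m + 3) + 2 * preDeg (m + 4)) ∧
    (preDeg (2 * (m + 2) + 1) = preDeg (m + 4) + 3 * preDeg (m + 2) + (if Even m then 2 * 3 else 0) ∧
    preDeg (2 * (m + 2) + 1) =
      preDeg (m + 1) + 3 * preDeg (m + 3) + (if Even m then 0 else 2 * 3)) := by
  push_cast [← @Nat.cast_inj ℤ, ← mul_left_cancel_iff_of_pos (b := (preDeg _ : ℤ)) two_pos,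
    mul_add, mul_left_comm (2 : ℤ)]
  repeat rw [two_preDeg <| by lia]
  push_cast [Nat.even_add_one, ite_not, even_two_mul]
  constructor <;> constructor <;> split_ifs <;> ring1

theorem wtLe_preΨ' (n : ℕ) : WtLe (preDeg n) ((legX k).preΨ' n) := by
  induction n using normEDSRec with
  | zero => rw [preΨ'_zero]; exact wtLe_zero _
  | one => rw [preΨ'_one]; exact wtLe_one.mono (Nat.zero_le _)
  | two => rw [preΨ'_two]; exact wtLe_one.mono (Nat.zero_le _)
  | three => rw [preΨ'_three]; exact wtLe_Ψ₃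
  | four => rw [preΨ'_four]; exact wtLe_preΨ₄
  | even m h₁ h₂ h₃ h₄ h₅ =>
    rw [preΨ'_even]
    exact ((((h₂.pow 2).mul h₃).mul h₅).mono (preDeg_rec m).1.1.ge).sub
      (((h₁.mul h₃).mul (h₄.pow 2)).mono (preDeg_rec m).1.2.ge)
  | odd m h₁ h₂ h₃ h₄ =>
    rw [preΨ'_odd]
    refine (((h₄.mul (h₂.pow 3)).mul ?_).mono (preDeg_rec m).2.1.ge).sub
      (((h₁.mul (h₃.pow 3)).mul ?_).mono (preDeg_rec m).2.2.ge)
    all_goals split_ifs
    all_goals first | exact wtLe_one | exact wtLe_Ψ₂Sq.pow 2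

end FA.Carayol

end
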