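import Fermat.Agent.Carayol.Hasse.Derivative
import Fermat.Agent.Carayol.Hasse.Weight

/-!
# Specialisations of the division polynomial of the Legendre curve

At a value `c ≠ 0, 1` the coefficient of `x ^ (q h)` vanishes exactly when there is no point of
order `q`, and then only the constant term is left.
-/

set_option autoImplicit false
set_option linter.unusedSectionVars false

noncomputable section

namespace FA.Carayol

open WeierstrassCurve Polynomial FA.EC

variable {k : Type} [Field k]

theorem legendre_eq_shortW (c : k) : legendre c = shortW (-(1 + c)) c 0 := rfl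

theorem legX_map (c : k) : (legX k).map (evalRingHom c) = legendre c := by
  ext <;> simp [legX, legendre]

theorem eval_coeff_psiQ (q : ℕ) (c : k) (i : ℕ) :
    ((psiQ q k).coeff i).eval c = ((legendre c).preΨ' q).coeff i := by
  rw [← legX_map c, map_preΨ', coeff_map]
  rfl

theorem Δ_legendre (c : k) : (legendre c).Δ = 16 * c ^ 2 * (c - 1) ^ 2 := by
  simp only [Δ, b₂, b₄, b₆, b₈, legendre]
  ring

theorem isElliptic_legendre {R : Type*} [Field R] (h2 : (2 : R) ≠ 0) {c : R} (h0 : c ≠ 0)
    (h1 : c ≠ 1) : (legendre c).IsElliptic := by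
  refine ⟨(isUnit_iff_ne_zero).2 ?_⟩
  have hΔ : (legendre c).Δ = 2 ^ 4 * c ^ 2 * (c - 1) ^ 2 := by
    simp only [Δ, b₂, b₄, b₆, b₈, legendre]
    ring
  rw [hΔ]
  exact mul_ne_zero (mul_ne_zero (pow_ne_zero _ h2) (pow_ne_zero _ h0))
    (pow_ne_zero _ (sub_ne_zero.2 h1))

variable {q : ℕ} [hq : Fact q.Prime] [CharP k q]

theorem two_ne_zero_charP (hq2 : q ≠ 2) : (2 : k) ≠ 0 :=
  Ring.two_ne_zero (by rw [ringChar.eq k q]; exact hq2)

theorem odd_half (hq2 : q ≠ 2) : q = 2 * ((q - 1) / 2) + 1 := by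
  obtain ⟨t, rfl⟩ := hq.out.odd_of_ne_two hq2
  omega

theorem preDeg_prime (hq2 : q ≠ 2) : preDeg q = q * ((q - 1) / 2) + (q - 1) / 2 := by
  have h := odd_half hq2
  set t := (q - 1) / 2
  have hsq : q ^ 2 = 2 * (q * t + t) + 1 := by rw [h]; ring
  rw [preDeg, if_neg (Nat.not_even_iff_odd.2 ⟨t, h⟩), hsq]
  omega

variable [IsAlgClosed k]

/-- The coefficients prime to `q` vanish. -/
theorem coeff_psiQ_eq_zero (hq2 : q ≠ 2) {i : ℕ} (hi : ¬ q ∣ i) : (psiQ q k).coeff i = 0 := by
  classical
  refine eq_zero_of_infinite_isRoot _ (Set.Infinite.mono (s := {c : k | c ≠ 0 ∧ c ≠ 1}) ?_ ?_)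
  · intro c hc
    haveI := isElliptic_legendre (two_ne_zero_charP hq2) hc.1 hc.2
    show ((psiQ q k).coeff i).eval c = 0
    rw [eval_coeff_psiQ, legendre_eq_shortW]
    have hd := (derivative_preΨ'_char (a := -(1 + c)) (b := c) (e := 0) hq2
      (hW := inferInstanceAs (legendre c).IsElliptic)).1
    rcases i with _ | i
    · exact absurd (dvd_zero q) hi
    have h := congrArg (fun p : k[X] => p.coeff i) hd
    simp only [coeff_derivative, coeff_zero] at h
    refine (mul_eq_zero.1 h).resolve_right fun h0 => hi ?_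
    rw [← CharP.cast_eq_zero_iff k q]
    exact_mod_cast h0
  · have : ({c : k | c ≠ 0 ∧ c ≠ 1}) = ({0, 1} : Set k)ᶜ := by ext c; simp
    rw [this]
    exact (Set.toFinite _).infinite_compl

theorem natDegree_psiQ_le (hq2 : q ≠ 2) : (psiQ q k).natDegree ≤ q * ((q - 1) / 2) := by
  refine natDegree_le_iff_coeff_eq_zero.2 fun i hi => ?_
  by_cases hd : q ∣ i
  · obtain ⟨m, rfl⟩ := hd
    refine coeff_eq_zero_of_natDegree_lt (lt_of_le_of_lt (natDegree_preΨ'_le _ q) ?_)
    show preDeg q < q * m
    have hm : q * ((q - 1) / 2 + 1) ≤ q * m :=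
      Nat.mul_le_mul_left q (Nat.lt_of_mul_lt_mul_left hi)
    rw [preDeg_prime hq2]
    rw [mul_add, mul_one] at hm
    have := hq.out.two_le
    omega
  · exact coeff_psiQ_eq_zero hq2 hd

theorem natDegree_hasse_le (hq2 : q ≠ 2) : (hasse q k).natDegree ≤ (q - 1) / 2 := by
  refine natDegree_le_iff_coeff_eq_zero.2 fun j hj => ?_
  refine wtLe_preΨ' (k := k) q _ j ?_
  rw [preDeg_prime hq2]
  omega

section special

variable [DecidableEq k] (hq2 : q ≠ 2) {c : k} [hW : (legendre c).IsElliptic]

include hq2 in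
theorem expand_contract_preΨ' :
    expand k q (contract q ((legendre c).preΨ' q)) = (legendre c).preΨ' q ∧
      (legendre c).preΨ' q ≠ 0 ∧
      (contract q ((legendre c).preΨ' q)).natDegree ≤ (q - 1) / 2 := by
  obtain ⟨hd, hne⟩ := derivative_preΨ'_char (a := -(1 + c)) (b := c) (e := 0) hq2
    (hW := inferInstanceAs (legendre c).IsElliptic)
  rw [← legendre_eq_shortW] at hd hne
  have he := expand_contract q hd hq.out.ne_zero
  refine ⟨he, hne, ?_⟩
  have h1 : ((legendre c).preΨ' q).natDegree ≤ q * ((q - 1) / 2) := by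
    rw [← legX_map c, map_preΨ']
    exact natDegree_map_le.trans (natDegree_psiQ_le hq2)
  rw [← he, natDegree_expand, mul_comm] at h1
  exact Nat.le_of_mul_le_mul_left h1 hq.out.pos

theorem eval_hasse_eq : (hasse q k).eval c =
    (contract q ((legendre c).preΨ' q)).coeff ((q - 1) / 2) := by
  rw [hasse, eval_coeff_psiQ, coeff_contract hq.out.ne_zero, mul_comm]

include hq2

/-- **A point of order `q` makes the Hasse invariant nonzero.** -/
theorem eval_hasse_ne_zero_of_root {x : k} (hx : ((legendre c).preΨ' q).eval x = 0) :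
    (hasse q k).eval c ≠ 0 := by
  obtain ⟨hexp, hne, hdeg⟩ := expand_contract_preΨ' hq2 (c := c)
  set W := legendre c
  set h := (q - 1) / 2
  set G := contract q (W.preΨ' q)
  have hqh : q = 2 * h + 1 := odd_half hq2
  have hG0 : G ≠ 0 := fun e => hne (by rw [← hexp, e, map_zero])
  have hΨ : ∀ z, (W.ΨSq q).eval z = ((W.preΨ' q).eval z) ^ 2 := fun z => by
    rw [ΨSq_ofNat, if_neg (Nat.not_even_iff_odd.2 ⟨h, hqh⟩), mul_one, eval_pow]
  obtain ⟨y, hy⟩ := exists_nonsingular W x
  set P : W.toAffine.Point := .some x y hy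
  have hP0 : P ≠ 0 := Affine.Point.some_ne_zero hy
  have hqP : q • P = 0 := (nsmul_eq_zero_iff hy q).2 (by rw [hΨ, hx, zero_pow two_ne_zero])
  have hord : addOrderOf P = q := addOrderOf_eq_prime hqP hP0
  have hdvd : ∀ n : ℕ, n • P = 0 → q ∣ n := fun n hn => hord ▸ addOrderOf_dvd_of_nsmul_eq_zero hn
  have hne0 : ∀ i : Fin h, (i.1 + 1) • P ≠ 0 := fun i e =>
    absurd (Nat.le_of_dvd (Nat.succ_pos _) (hdvd _ e)) (by have := i.2; omega)
  have hroot : ∀ i : Fin h, xc ((i.1 + 1) • P) ^ q ∈ G.roots.toFinset := fun i => by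
    obtain ⟨a, b, hab, e⟩ := exists_some_of_ne_zero (hne0 i)
    rw [Multiset.mem_toFinset, mem_roots hG0, IsRoot, ← expand_eval, hexp, e, xc_some]
    have h0 : q • Affine.Point.some a b hab = 0 := by
      rw [← e, smul_comm, hqP, nsmul_zero]
    rw [nsmul_eq_zero_iff hab, hΨ] at h0
    exact eq_zero_of_pow_eq_zero h0
  have hinj : Function.Injective fun i : Fin h => xc ((i.1 + 1) • P) ^ q := by
    intro i j hij
    have hx' : xc ((i.1 + 1) • P) = xc ((j.1 + 1) • P) := frobenius_inj k q hij
    rcases eq_or_eq_neg_of_xc_eq (hne0 i) (hne0 j) hx' with e | e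
    · have hi := i.2
      have hj := j.2
      exact Fin.ext (by
        rcases Nat.le_total i.1 j.1 with hle | hle
        · have h0 : (j.1 - i.1) • P = 0 := by
            refine (add_eq_right (b := (i.1 + 1) • P)).1 ?_
            rw [← add_nsmul, show (j.1 - i.1) + (i.1 + 1) = j.1 + 1 by omega]
            exact e.symm
          have := hdvd _ h0
          by_contra hne'
          exact absurd (Nat.le_of_dvd (by omega) this) (by omega)
        · have h0 : (i.1 - j.1) • P = 0 := by
            refine (add_eq_right (b := (j.1 + 1) • P)).1 ?_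
            rw [← add_nsmul, show (i.1 - j.1) + (j.1 + 1) = i.1 + 1 by omega]
            exact e
          have := hdvd _ h0
          by_contra hne'
          exact absurd (Nat.le_of_dvd (by omega) this) (by omega))
    · rw [eq_neg_iff_add_eq_zero, ← add_nsmul] at e
      exact absurd (Nat.le_of_dvd (by omega) (hdvd _ e)) (by have := i.2; have := j.2; omega)
  have hcard : h ≤ G.natDegree := by
    have h1 := Finset.card_le_card_of_injOn (fun i : Fin h => xc ((i.1 + 1) • P) ^ q)
      (s := Finset.univ) (fun i _ => hroot i) hinj.injOn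
    rw [Finset.card_univ, Fintype.card_fin] at h1
    exact h1.trans ((Multiset.toFinset_card_le _).trans (card_roots' G))
  rw [eval_hasse_eq]
  show G.coeff h ≠ 0
  rw [show h = G.natDegree by omega]
  exact leadingCoeff_ne_zero.2 hG0

/-- **A zero of the Hasse invariant leaves only the constant term.** -/
theorem only_constant_of_eval_hasse_eq_zero (hc : (hasse q k).eval c = 0) :
    (∀ i, i ≠ 0 → ((psiQ q k).coeff i).eval c = 0) ∧ ((psiQ q k).coeff 0).eval c ≠ 0 := by
  obtain ⟨-, hne, -⟩ := expand_contract_preΨ' hq2 (c := c)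
  have hdeg : ((legendre c).preΨ' q).natDegree = 0 := by
    by_contra hd
    obtain ⟨x, hx⟩ := IsAlgClosed.exists_root _
      (fun h => hd (natDegree_eq_of_degree_eq_some h) : ((legendre c).preΨ' q).degree ≠ 0)
    exact eval_hasse_ne_zero_of_root hq2 hx hc
  refine ⟨fun i hi => ?_, ?_⟩
  · rw [eval_coeff_psiQ]
    exact coeff_eq_zero_of_natDegree_lt (by omega)
  · rw [eval_coeff_psiQ]
    intro h0
    exact hne (by rw [eq_C_of_natDegree_eq_zero hdeg, h0, map_zero])

end special

end FA.Carayol

end
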